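/-
S15 / Dict / AN : change of basis of a lattice.  Architect helper260.
-/
import Mathlib

set_option autoImplicit false

namespace Fermat.Agent.S15.Dict.AN

/-- a unimodular change of basis -/
theorem Unimod_exists (L : PeriodPair) (p q r s d : ℤ) (hd : d * d = 1)
    (hdet : p * s - q * r = d) :
    ∃ M : PeriodPair, M.lattice = L.lattice ∧ M.ω₁ = p * L.ω₁ + q * L.ω₂ ∧
      M.ω₂ = r * L.ω₁ + s * L.ω₂ := by
  have hind := LinearIndependent.pair_iff.mp L.indep
  have hdR : (d : ℝ) ≠ 0 := by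
    intro h0
    have h1 : d = 0 := by exact_mod_cast h0
    rw [h1] at hd
    norm_num at hd
  have hdetR : (p : ℝ) * s - q * r = d := by exact_mod_cast hdet
  have hdetC : (p : ℂ) * s - q * r = d := by exact_mod_cast hdet
  have hdC : (d : ℂ) * d = 1 := by exact_mod_cast hd
  refine ⟨⟨p * L.ω₁ + q * L.ω₂, r * L.ω₁ + s * L.ω₂, ?_⟩, ?_, rfl, rfl⟩
  · rw [LinearIndependent.pair_iff]
    intro x y hxy
    obtain ⟨h2, h3⟩ := hind (x * p + y * r) (x * q + y * s) (by
      simp only [Complex.real_smul] at hxy ⊢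
      push_cast
      linear_combination hxy)
    constructor
    · have h4 : x * d = 0 := by
        rw [← hdetR]
        linear_combination (s : ℝ) * h2 - (r : ℝ) * h3
      exact (mul_eq_zero.1 h4).resolve_right hdR
    · have h4 : y * d = 0 := by
        rw [← hdetR]
        linear_combination (p : ℝ) * h3 - (q : ℝ) * h2
      exact (mul_eq_zero.1 h4).resolve_right hdR
  · apply le_antisymm
    · intro z hz
      obtain ⟨a, b, rfl⟩ := PeriodPair.mem_lattice.1 hz
      refine PeriodPair.mem_lattice.2 ⟨a * p + b * r, a * q + b * s, ?_⟩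
      push_cast
      ring
    · intro z hz
      obtain ⟨a, b, rfl⟩ := PeriodPair.mem_lattice.1 hz
      refine PeriodPair.mem_lattice.2 ⟨d * (a * s - b * r), d * (b * p - a * q), ?_⟩
      push_cast
      linear_combination ((a : ℂ) * L.ω₁ + b * L.ω₂) * (hdC + (d : ℂ) * hdetC)

/-- the quotient of the periods is not real -/
theorem Unimod_im_ne_zero (M : PeriodPair) : (M.ω₂ / M.ω₁).im ≠ 0 := by
  have hind := LinearIndependent.pair_iff.mp M.indep
  intro h0
  have h1 : M.ω₁ ≠ 0 := by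
    intro h
    have := (hind 1 0 (by simp [h])).1
    exact one_ne_zero this
  have h2 : M.ω₂ = ((M.ω₂ / M.ω₁).re : ℂ) * M.ω₁ := by
    have h3 : ((M.ω₂ / M.ω₁).re : ℂ) = M.ω₂ / M.ω₁ := by
      apply Complex.ext
      · simp
      · simp [h0]
    rw [h3, div_mul_cancel₀ _ h1]
  have := (hind (M.ω₂ / M.ω₁).re (-1) (by
    simp only [Complex.real_smul]
    push_cast
    linear_combination -h2)).2
  norm_num at this

/-- A primitive vector `m ω₁ + n ω₂` (`m, n` coprime) is the first vector of an oriented basis.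
Proof: Bezout `m s - n r = 1` (`Int.isCoprime_iff_gcd_eq_one`, `IsCoprime`), `ω₂' = ± (r ω₁ + s ω₂)`.
`ℝ`-independence of `(ω₁', ω₂')` from that of `(ω₁, ω₂)` (`LinearIndependent.pair_iff`); equality
of the spans by double inclusion (`ω₁ = s ω₁' - n ω₂'`, `ω₂ = -r ω₁' + m ω₂'`);
`Im(ω₂'/ω₁') ≠ 0` by independence (if it is `0` then `ω₂' = t ω₁'` with `t` real); choose the
sign. -/
theorem exists_basis_of_coprime (L : PeriodPair) (m n : ℤ) (h : IsCoprime m n) :
    ∃ M : PeriodPair, M.lattice = L.lattice ∧ M.ω₁ = m * L.ω₁ + n * L.ω₂ ∧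
      0 < (M.ω₂ / M.ω₁).im := by
  obtain ⟨a, b, hab⟩ := h
  obtain ⟨M, hM, hM1, hM2⟩ := Unimod_exists L m n (-b) a 1 (by norm_num) (by linarith)
  obtain ⟨M', hM', hM1', hM2'⟩ := Unimod_exists L m n b (-a) (-1) (by norm_num) (by linarith)
  rcases lt_or_gt_of_ne (Unimod_im_ne_zero M) with hlt | hgt
  · refine ⟨M', hM', hM1', ?_⟩
    have e : M'.ω₂ / M'.ω₁ = -(M.ω₂ / M.ω₁) := by
      rw [hM1', hM2', hM1, hM2]
      push_cast
      ring
    rw [e, Complex.neg_im]
    linarith
  · exact ⟨M, hM, hM1, hgt⟩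

end Fermat.Agent.S15.Dict.AN
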