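/-
S15 / Dict / AN : a basis adapted to a cyclic subgroup of prime order.  Architect helper260.
-/
import Fermat.Agent.S15.Dict.AN.Unif.Unimod

set_option autoImplicit false

namespace Fermat.Agent.S15.Dict.AN

/-- The period pair `(ω₁/N, ω₂)`. -/
noncomputable def divFirst (M : PeriodPair) (N : ℕ) (hN : N ≠ 0) : PeriodPair where
  ω₁ := M.ω₁ / N
  ω₂ := M.ω₂
  indep := by
    have hind := LinearIndependent.pair_iff.mp M.indep
    have hNR : (N : ℝ) ≠ 0 := by exact_mod_cast hN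
    have hNC : (N : ℂ) ≠ 0 := by exact_mod_cast hN
    rw [LinearIndependent.pair_iff]
    intro x y hxy
    obtain ⟨h1, h2⟩ := hind (x / N) y (by
      simp only [Complex.real_smul] at hxy ⊢
      push_cast
      rw [← hxy]
      field_simp)
    exact ⟨by rwa [div_eq_zero_iff, or_iff_left hNR] at h1, h2⟩

@[simp] theorem divFirst_ω₁ (M : PeriodPair) (N : ℕ) (hN : N ≠ 0) :
    (divFirst M N hN).ω₁ = M.ω₁ / N := rfl
@[simp] theorem divFirst_ω₂ (M : PeriodPair) (N : ℕ) (hN : N ≠ 0) :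
    (divFirst M N hN).ω₂ = M.ω₂ := rfl

/-- `N z0 = m ω₁ + n ω₂` (`PeriodPair.mem_lattice`), `d = gcd(m, n)`, `N ∤ d` (else `z0 ∈ L`),
`(m, n) = d (m', n')` with `m', n'` coprime; `M` from `exists_basis_of_coprime L m' n'`:
`N z0 = d M.ω₁`.  `L + ℤ z0 = ⟨M.ω₁/N, M.ω₂⟩`: `z0 = d (M.ω₁/N)`; conversely `u d + v N = 1`
(`N` prime, `N ∤ d`) gives `M.ω₁/N = u z0 + v M.ω₁`. -/
theorem exists_adapted_basis (L : PeriodPair) (N : ℕ) (hN : N.Prime) (z0 : ℂ)
    (h0 : z0 ∉ L.lattice) (hN0 : (N : ℂ) * z0 ∈ L.lattice) :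
    ∃ M : PeriodPair, M.lattice = L.lattice ∧ 0 < (M.ω₂ / M.ω₁).im ∧
      (divFirst M N hN.ne_zero).lattice = L.lattice ⊔ Submodule.span ℤ {z0} := by
  have hNC : (N : ℂ) ≠ 0 := by exact_mod_cast hN.ne_zero
  obtain ⟨m, n, hmn⟩ := PeriodPair.mem_lattice.1 hN0
  have hd0 : 0 < Int.gcd m n := by
    rw [Nat.pos_iff_ne_zero]
    intro h
    obtain ⟨rfl, rfl⟩ := Int.gcd_eq_zero_iff.1 h
    apply h0
    have : z0 = 0 := by
      have h1 : (N : ℂ) * z0 = 0 := by rw [← hmn]; simp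
      exact (mul_eq_zero.1 h1).resolve_left hNC
    rw [this]
    exact zero_mem _
  obtain ⟨m', n', hcop, hm, hn⟩ := Int.exists_gcd_one hd0
  generalize Int.gcd m n = d at hd0 hm hn
  have hz : (N : ℂ) * z0 = d * (m' * L.ω₁ + n' * L.ω₂) := by
    rw [← hmn, hm, hn]
    push_cast
    ring
  have hNd : ¬ N ∣ d := by
    rintro ⟨e, rfl⟩
    apply h0
    have h1 : (N : ℂ) * z0 = N * (((e : ℤ) * m' : ℤ) * L.ω₁ + ((e : ℤ) * n' : ℤ) * L.ω₂) := by
      rw [hz]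
      push_cast
      ring
    rw [mul_left_cancel₀ hNC h1]
    exact PeriodPair.mem_lattice.2 ⟨_, _, rfl⟩
  obtain ⟨M, hM, hM1, hMim⟩ :=
    exists_basis_of_coprime L m' n' (Int.isCoprime_iff_gcd_eq_one.2 hcop)
  rw [← hM1] at hz
  obtain ⟨v, u, huv⟩ : IsCoprime (N : ℤ) (d : ℤ) :=
    Nat.isCoprime_iff_coprime.2 ((Nat.Prime.coprime_iff_not_dvd hN).2 hNd)
  have huvC : (v : ℂ) * N + u * d = 1 := by exact_mod_cast huv
  have hz0 : z0 = d * (M.ω₁ / N) := by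
    field_simp
    linear_combination hz
  refine ⟨M, hM, hMim, le_antisymm ?_ (sup_le ?_ ?_)⟩
  · intro x hx
    obtain ⟨a, b, rfl⟩ := PeriodPair.mem_lattice.1 hx
    rw [Submodule.mem_sup]
    refine ⟨((a * v : ℤ) : ℂ) * M.ω₁ + b * M.ω₂, ?_, (a * u) • z0,
      Submodule.mem_span_singleton.2 ⟨a * u, rfl⟩, ?_⟩
    · rw [← hM]
      exact PeriodPair.mem_lattice.2 ⟨_, _, rfl⟩
    · rw [divFirst_ω₁, divFirst_ω₂, zsmul_eq_mul, hz0]
      push_cast
      field_simp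
      linear_combination (a : ℂ) * M.ω₁ * huvC
  · intro x hx
    rw [← hM] at hx
    obtain ⟨a, b, rfl⟩ := PeriodPair.mem_lattice.1 hx
    refine PeriodPair.mem_lattice.2 ⟨a * N, b, ?_⟩
    rw [divFirst_ω₁, divFirst_ω₂]
    push_cast
    field_simp
  · rw [Submodule.span_singleton_le_iff_mem]
    refine PeriodPair.mem_lattice.2 ⟨d, 0, ?_⟩
    rw [divFirst_ω₁, hz0]
    push_cast
    ring

end Fermat.Agent.S15.Dict.AN
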