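/-
S15 / Dict / AN : the lattice `ℤ + ℤτ` and Mathlib's Eisenstein series.  Architect helper260.
-/
import Mathlib

set_option autoImplicit false

namespace Fermat.Agent.S15.Dict.AN

open UpperHalfPlane ModularForm EisensteinSeries

/-- The period pair `(1, τ)`. -/
noncomputable def ofTau (τ : ℍ) : PeriodPair where
  ω₁ := 1
  ω₂ := τ
  indep := by
    rw [LinearIndependent.pair_iff]
    intro s t h
    have him := congrArg Complex.im h
    have hre := congrArg Complex.re h
    simp only [Complex.real_smul, Complex.add_im, Complex.mul_im, Complex.ofReal_re,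
      Complex.one_im, mul_zero, Complex.ofReal_im, Complex.one_re, mul_one, add_zero,
      UpperHalfPlane.coe_im, UpperHalfPlane.coe_re, zero_mul, zero_add, Complex.zero_im,
      Complex.add_re, Complex.mul_re, sub_zero, Complex.zero_re] at him hre
    have ht : t = 0 := (mul_eq_zero.1 him).resolve_right τ.im_pos.ne'
    rw [ht, zero_mul, add_zero] at hre
    exact ⟨hre, ht⟩

@[simp] theorem ofTau_ω₁ (τ : ℍ) : (ofTau τ).ω₁ = 1 := rfl
@[simp] theorem ofTau_ω₂ (τ : ℍ) : (ofTau τ).ω₂ = τ := rfl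

/-- `G_k(ℤ + ℤτ) = ∑_{v} (v₀ τ + v₁)^{-k}`: transport along `PeriodPair.latticeEquivProd`
(`latticeEquiv_symm_apply`), `Equiv.prodComm`, `finTwoArrowEquiv`. -/
theorem G_ofTau_eq_tsum (τ : ℍ) (k : ℕ) :
    (ofTau τ).G k = ∑' v : Fin 2 → ℤ, eisSummand k v τ := by
  unfold PeriodPair.G
  let e : (Fin 2 → ℤ) ≃ (ofTau τ).lattice :=
    ((finTwoArrowEquiv ℤ).trans (Equiv.prodComm ℤ ℤ)).trans
      (ofTau τ).latticeEquivProd.symm.toEquiv
  rw [← e.tsum_eq]
  refine tsum_congr fun v => ?_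
  have he : ((e v : (ofTau τ).lattice) : ℂ) = (v 0 : ℂ) * τ + v 1 := by
    have := (ofTau τ).latticeEquiv_symm_apply (v 1, v 0)
    simp only [ofTau_ω₁, ofTau_ω₂, mul_one] at this
    rw [add_comm] at this
    exact this
  rw [he, eisSummand, zpow_neg, zpow_natCast]

/-- `G_k(ℤ + ℤτ) = 2 ζ(k) E_k(τ)`:
`EisensteinSeries.tsum_eisSummand_eq_riemannZeta_mul_eisensteinSeries` and the definition of
`ModularForm.E` (see the first lines of the proof of `EisensteinSeries.q_expansion_riemannZeta`). -/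
theorem G_ofTau (τ : ℍ) {k : ℕ} (hk : 3 ≤ k) :
    (ofTau τ).G k = 2 * riemannZeta k * E hk τ := by
  rw [G_ofTau_eq_tsum, tsum_eisSummand_eq_riemannZeta_mul_eisensteinSeries hk τ,
    show E hk τ = (1 / 2 : ℂ) • eisensteinSeriesSIF (N := 1) 0 k τ from rfl,
    eisensteinSeriesSIF_apply 0 k τ, smul_eq_mul]
  ring

end Fermat.Agent.S15.Dict.AN
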