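/-
S15 / Dict / AN : `g₂, g₃, Δ, j` of the lattice `ℤ + ℤτ`.  Architect helper260.
-/
import Fermat.Agent.S15.Dict.AN.Unif.Eis
import Fermat.Agent.S24.Analytic.Defs

set_option autoImplicit false

namespace Fermat.Agent.S15.Dict.AN

open UpperHalfPlane ModularForm EisensteinSeries Real

/-- `ζ(6) = π⁶/945` (`riemannZeta_two_mul_nat` with `k = 3`, `bernoulli 6 = 1/42`). -/
theorem riemannZeta_six : riemannZeta 6 = (π : ℂ) ^ 6 / 945 := by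
  have h := riemannZeta_two_mul_nat (k := 3) (by norm_num)
  have hb : bernoulli 6 = 1 / 42 := by decide +kernel
  norm_num [hb, Nat.factorial] at h
  rw [h]
  ring

/-- `g₂(ℤ+ℤτ) = (4π⁴/3) E₄(τ)` (`riemannZeta_four`). -/
theorem g₂_ofTau (τ : ℍ) : (ofTau τ).g₂ = 4 * (π : ℂ) ^ 4 / 3 * E₄ τ := by
  have h := G_ofTau τ (k := 4) (by norm_num)
  rw [PeriodPair.g₂, h]
  push_cast
  rw [riemannZeta_four]
  ring

/-- `g₃(ℤ+ℤτ) = (8π⁶/27) E₆(τ)`. -/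
theorem g₃_ofTau (τ : ℍ) : (ofTau τ).g₃ = 8 * (π : ℂ) ^ 6 / 27 * E₆ τ := by
  have h := G_ofTau τ (k := 6) (by norm_num)
  rw [PeriodPair.g₃, h]
  push_cast
  rw [riemannZeta_six]
  ring

/-- `g₂³ - 27 g₃² = (2π)¹² Δ(τ)` (`ModularForm.discriminant_eq_E₄_cube_sub_E₆_sq`). -/
theorem disc_ofTau (τ : ℍ) :
    (ofTau τ).g₂ ^ 3 - 27 * (ofTau τ).g₃ ^ 2 = (2 * (π : ℂ)) ^ 12 * discriminant τ := by
  rw [g₂_ofTau, g₃_ofTau, discriminant_eq_E₄_cube_sub_E₆_sq]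
  ring

/-- `j(τ) (g₂³ - 27g₃²) = 1728 g₂³` (`discriminant_ne_zero`). -/
theorem jfun_ofTau (τ : ℍ) :
    Fermat.Agent.S24.jfun τ * ((ofTau τ).g₂ ^ 3 - 27 * (ofTau τ).g₃ ^ 2)
      = 1728 * (ofTau τ).g₂ ^ 3 := by
  have hΔ : discriminant τ ≠ 0 := discriminant_ne_zero τ
  rw [disc_ofTau, g₂_ofTau, Fermat.Agent.S24.jfun]
  field_simp
  ring

end Fermat.Agent.S15.Dict.AN
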