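/-
S15 / Dict / AN : `j` of a general period pair.  Architect helper260.
-/
import Fermat.Agent.S15.Dict.AN.Unif.JOfTau
import Fermat.Agent.S15.Dict.AN.Scale
import Fermat.Agent.S15.Dict.AN.Tools.PBasic

set_option autoImplicit false

namespace Fermat.Agent.S15.Dict.AN

open UpperHalfPlane

theorem ω₁_ne_zero (M : PeriodPair) : M.ω₁ ≠ 0 := by
  intro h
  have h1 := LinearIndependent.pair_iff.mp M.indep 1 0 (by rw [h]; simp)
  exact one_ne_zero h1.1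

/-- a period pair is determined by its periods -/
theorem JInv_ext {L L' : PeriodPair} (h₁ : L.ω₁ = L'.ω₁) (h₂ : L.ω₂ = L'.ω₂) : L = L' := by
  obtain ⟨a, b, h⟩ := L
  obtain ⟨a', b', h'⟩ := L'
  obtain rfl : a = a' := h₁
  obtain rfl : b = b' := h₂
  rfl

/-- If `ω₂ = τ ω₁` then `M` and `ω₁ (ℤ + ℤτ)` have the same periods, so
`g₂(M) = ω₁⁻⁴ g₂(ofTau τ)`, `g₃(M) = ω₁⁻⁶ g₃(ofTau τ)` (`g₂_congr`, `g₂_scale`), and the identity
`jfun_ofTau` is homogeneous. -/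
theorem jfun_mul (M : PeriodPair) (τ : ℍ) (hτ : (τ : ℂ) * M.ω₁ = M.ω₂) :
    Fermat.Agent.S24.jfun τ * (M.g₂ ^ 3 - 27 * M.g₃ ^ 2) = 1728 * M.g₂ ^ 3 := by
  have hω := ω₁_ne_zero M
  have hM : M = scale M.ω₁ hω (ofTau τ) :=
    JInv_ext (by rw [scale_ω₁, ofTau_ω₁, mul_one]) (by rw [scale_ω₂, ofTau_ω₂, mul_comm, hτ])
  have h := jfun_ofTau τ
  have e2 : M.g₂ = (M.ω₁ ^ 4)⁻¹ * (ofTau τ).g₂ := by
    conv_lhs => rw [hM]
    exact g₂_scale _ hω _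
  have e3 : M.g₃ = (M.ω₁ ^ 6)⁻¹ * (ofTau τ).g₃ := by
    conv_lhs => rw [hM]
    exact g₃_scale _ hω _
  rw [e2, e3]
  linear_combination ((M.ω₁ ^ 4)⁻¹) ^ 3 * h

end Fermat.Agent.S15.Dict.AN
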