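/-
S15 / Dict / AN : every `(a, b)` with `a³ ≠ 27 b²` is `(g₂, g₃)` of a lattice.  Architect helper260.
-/
import Fermat.Agent.S15.Dict.AN.Unif.JInv
import Fermat.Agent.S15.Dict.AN.Half.Alg
import Fermat.Agent.S24.Analytic.JSurj

set_option autoImplicit false

namespace Fermat.Agent.S15.Dict.AN

open UpperHalfPlane

/-- Pure algebra: if `(A, B)`, `(a, b)` have non-zero discriminants and the same `j`
(`A³ b² = a³ B²`) then `a = ν⁴ A`, `b = ν⁶ B` for some `ν ≠ 0`.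
Cases: `a = 0` (`A = 0`, `ν⁶ = b/B`), `b = 0` (`B = 0`, `ν⁴ = a/A`), else `ν² = (b A)/(B a)`
(roots exist: `IsAlgClosed.exists_pow_nat_eq`). -/
theorem exists_scale_alg (a b A B : ℂ) (h : a ^ 3 - 27 * b ^ 2 ≠ 0) (H : A ^ 3 - 27 * B ^ 2 ≠ 0)
    (hj : A ^ 3 * b ^ 2 = a ^ 3 * B ^ 2) : ∃ ν : ℂ, ν ≠ 0 ∧ a = ν ^ 4 * A ∧ b = ν ^ 6 * B := by
  by_cases ha : a = 0
  · subst ha
    have hb : b ≠ 0 := by
      rintro rfl
      exact h (by ring)
    have hA : A = 0 := by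
      have h1 : A ^ 3 * b ^ 2 = 0 := by rw [hj]; ring
      exact pow_eq_zero_iff (n := 3) (by norm_num) |>.1
        ((mul_eq_zero.1 h1).resolve_right (pow_ne_zero 2 hb))
    subst hA
    have hB : B ≠ 0 := by
      rintro rfl
      exact H (by ring)
    obtain ⟨ν, hν⟩ := IsAlgClosed.exists_pow_nat_eq (b / B) (n := 6) (by norm_num)
    refine ⟨ν, ?_, by ring, by rw [hν, div_mul_cancel₀ _ hB]⟩
    rintro rfl
    rw [zero_pow (by norm_num)] at hν
    exact div_ne_zero hb hB hν.symm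
  by_cases hb : b = 0
  · subst hb
    have hB : B = 0 := by
      have h1 : a ^ 3 * B ^ 2 = 0 := by rw [← hj]; ring
      exact pow_eq_zero_iff (n := 2) (by norm_num) |>.1
        ((mul_eq_zero.1 h1).resolve_left (pow_ne_zero 3 ha))
    subst hB
    have hA : A ≠ 0 := by
      rintro rfl
      exact H (by ring)
    obtain ⟨ν, hν⟩ := IsAlgClosed.exists_pow_nat_eq (a / A) (n := 4) (by norm_num)
    refine ⟨ν, ?_, by rw [hν, div_mul_cancel₀ _ hA], by ring⟩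
    rintro rfl
    rw [zero_pow (by norm_num)] at hν
    exact div_ne_zero ha hA hν.symm
  have hB : B ≠ 0 := by
    rintro rfl
    have h1 : A ^ 3 * b ^ 2 = 0 := by rw [hj]; ring
    have hA : A = 0 := pow_eq_zero_iff (n := 3) (by norm_num) |>.1
      ((mul_eq_zero.1 h1).resolve_right (pow_ne_zero 2 hb))
    subst hA
    exact H (by ring)
  have hA : A ≠ 0 := by
    rintro rfl
    have h1 : a ^ 3 * B ^ 2 = 0 := by rw [← hj]; ring
    exact mul_ne_zero (pow_ne_zero 3 ha) (pow_ne_zero 2 hB) h1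
  obtain ⟨ν, hν⟩ := IsAlgClosed.exists_pow_nat_eq ((b * A) / (B * a)) (n := 2) (by norm_num)
  refine ⟨ν, ?_, ?_, ?_⟩
  · rintro rfl
    rw [zero_pow (by norm_num)] at hν
    exact div_ne_zero (mul_ne_zero hb hA) (mul_ne_zero hB ha) hν.symm
  · have h4 : ν ^ 4 = (ν ^ 2) ^ 2 := by ring
    rw [h4, hν]
    field_simp
    linear_combination -hj
  · have h6 : ν ^ 6 = (ν ^ 2) ^ 3 := by ring
    rw [h6, hν]
    field_simp
    linear_combination -hj

/-- **Uniformisation.**  `τ` with `jfun τ = 1728 a³/(a³ - 27b²)` (`S24.jfun_surjective`),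
`(A, B) = (g₂, g₃)(ofTau τ)`, `disc_ne_zero`, `jfun_ofTau` give `A³ b² = a³ B²`; take
`L = scale ν⁻¹ (ofTau τ)` (`g₂_scale`, `g₃_scale`). -/
theorem exists_periodPair (a b : ℂ) (h : a ^ 3 - 27 * b ^ 2 ≠ 0) :
    ∃ L : PeriodPair, L.g₂ = a ∧ L.g₃ = b := by
  obtain ⟨τ, hτ⟩ := Fermat.Agent.S24.jfun_surjective (1728 * a ^ 3 / (a ^ 3 - 27 * b ^ 2))
  have hJ := jfun_ofTau τ
  have hD := disc_ne_zero (ofTau τ)
  rw [hτ] at hJ
  have hj : (ofTau τ).g₂ ^ 3 * b ^ 2 = a ^ 3 * (ofTau τ).g₃ ^ 2 := by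
    rw [div_mul_eq_mul_div, div_eq_iff h] at hJ
    linear_combination (1 / (1728 * 27) : ℂ) * hJ
  obtain ⟨ν, hν, h2, h3⟩ := exists_scale_alg a b _ _ h hD hj
  refine ⟨scale ν⁻¹ (inv_ne_zero hν) (ofTau τ), ?_, ?_⟩
  · rw [g₂_scale, inv_pow, inv_inv, ← h2]
  · rw [g₃_scale, inv_pow, inv_inv, ← h3]

end Fermat.Agent.S15.Dict.AN
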